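import Fermat.Agent.BezoutCurves.Basic
import Mathlib.LinearAlgebra.CrossProduct

/-!
# The theorem of Cayley and Bacharach for cubics

If two coprime cubic forms have nine common points, every cubic form through eight of them passes
through the ninth: eight points, no four on a line and no seven on a conic, impose independent
conditions on cubics.
-/

set_option autoImplicit false

noncomputable section

open MvPolynomial Module Finset

namespace FA.CayleyBacharach

variable {K : Type*} [Field K]

/-- The points of the family are pairwise distinct in the projective plane. -/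
def Distinct {ι : Type*} (p : ι → Fin 3 → K) : Prop :=
  (∀ i, p i ≠ 0) ∧ ∀ i j, i ≠ j → ∀ c : K, p j ≠ c • p i

theorem card_le {f g : MvPolynomial (Fin 3) K} {m n : ℕ} (hf : f.IsHomogeneous m)
    (hg : g.IsHomogeneous n) (hcop : IsRelPrime f g) {ι : Type*} {p : ι → Fin 3 → K}
    (hp : Distinct p) (s : Finset ι) (hfz : ∀ i ∈ s, eval (p i) f = 0)
    (hgz : ∀ i ∈ s, eval (p i) g = 0) : #s ≤ m * n := by
  rw [← Fintype.card_coe s]
  exact BezoutCurves.card_projective_zeros hf hg hcop (fun i : s => p i) (fun i => hp.1 i)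
    (fun i j hij => hp.2 i j fun h => hij (Subtype.ext h)) (fun i => hfz i i.2) fun i => hgz i i.2

theorem irreducible_of_degree_one {l : MvPolynomial (Fin 3) K} (hl : l.IsHomogeneous 1)
    (h0 : l ≠ 0) : Irreducible l := by
  have hd : l.totalDegree = 1 := hl.totalDegree h0
  refine ⟨fun h => ?_, fun a b hab => ?_⟩
  · rw [isUnit_iff_totalDegree_of_isReduced] at h
    omega
  · have ha : a ≠ 0 := left_ne_zero_of_mul (hab ▸ h0)
    have hb : b ≠ 0 := right_ne_zero_of_mul (hab ▸ h0)
    rw [hab, totalDegree_mul_of_isDomain ha hb] at hd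
    rcases Nat.eq_zero_or_pos a.totalDegree with h | h
    · refine Or.inl ?_
      rw [totalDegree_eq_zero_iff_eq_C.1 h] at ha ⊢
      exact (IsUnit.mk0 _ fun hc => ha (by rw [hc, map_zero])).map C
    · refine Or.inr ?_
      rw [totalDegree_eq_zero_iff_eq_C.1 (show b.totalDegree = 0 by omega)] at hb ⊢
      exact (IsUnit.mk0 _ fun hc => hb (by rw [hc, map_zero])).map C

/-- A form dividing a form of the same degree is a scalar multiple of it. -/
theorem eq_C_mul_of_dvd {a b : MvPolynomial (Fin 3) K} {n : ℕ} (ha : a.IsHomogeneous n)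
    (hb : b.IsHomogeneous n) (ha0 : a ≠ 0) (h : a ∣ b) : ∃ c, b = C c * a := by
  obtain ⟨c, rfl⟩ := h
  have hc : c.IsHomogeneous 0 := BezoutCurves.isHomogeneous_of_mul ha ha0 (by rwa [zero_add])
  exact ⟨constantCoeff c, by
    rw [mul_comm, constantCoeff_eq,
      ← totalDegree_eq_zero_iff_eq_C.1 (Nat.le_zero.1 hc.totalDegree_le)]⟩

/-- A reducible conic is a pair of lines. -/
theorem conic_cases {q : MvPolynomial (Fin 3) K} (hq : q.IsHomogeneous 2) (hq0 : q ≠ 0) :
    Irreducible q ∨ ∃ l₁ l₂ : MvPolynomial (Fin 3) K, l₁.IsHomogeneous 1 ∧ l₂.IsHomogeneous 1 ∧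
      l₁ ≠ 0 ∧ l₂ ≠ 0 ∧ q = l₁ * l₂ := by
  by_cases hirr : Irreducible q
  · exact Or.inl hirr
  have hd : q.totalDegree = 2 := hq.totalDegree hq0
  have hnu : ¬IsUnit q := fun h => by
    rw [isUnit_iff_totalDegree_of_isReduced] at h
    omega
  obtain ⟨a, b, hab, hau, hbu⟩ : ∃ a b, q = a * b ∧ ¬IsUnit a ∧ ¬IsUnit b := by
    by_contra! h
    exact hirr ⟨hnu, fun a b hab => or_iff_not_imp_left.2 (h a b hab)⟩
  have ha0 : a ≠ 0 := left_ne_zero_of_mul (hab ▸ hq0)
  have hb0 : b ≠ 0 := right_ne_zero_of_mul (hab ▸ hq0)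
  have hpos : ∀ u : MvPolynomial (Fin 3) K, u ≠ 0 → ¬IsUnit u → u.totalDegree ≠ 0 :=
    fun u hu0 hu h => hu (by
      rw [totalDegree_eq_zero_iff_eq_C.1 h] at hu0 ⊢
      exact (IsUnit.mk0 _ fun hc => hu0 (by rw [hc, map_zero])).map C)
  rw [hab, totalDegree_mul_of_isDomain ha0 hb0] at hd
  have h1 := hpos a ha0 hau
  have h2 := hpos b hb0 hbu
  -- one factor vanishes at the origin, so is a linear form
  have key : ∀ u w : MvPolynomial (Fin 3) K, q = u * w → u ≠ 0 → u.totalDegree ≤ 1 →
      coeff 0 u = 0 → u.IsHomogeneous 1 ∧ w.IsHomogeneous 1 := by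
    intro u w huw hu0 hu hc
    have hu1 : u.IsHomogeneous 1 := by
      intro d hd
      have hle : d.degree ≤ 1 := (le_totalDegree (mem_support_iff.2 hd)).trans hu
      rw [show (Finsupp.weight (1 : Fin 3 → ℕ)) d = d.degree from
        (DFunLike.congr_fun Finsupp.degree_eq_weight_one d).symm]
      rcases Nat.le_one_iff_eq_zero_or_eq_one.1 hle with h | h
      · exact absurd (show coeff d u = 0 by rw [(Finsupp.degree_eq_zero_iff d).1 h]; exact hc) hd
      · exact h
    exact ⟨hu1, BezoutCurves.isHomogeneous_of_mul (k := 1) hu1 hu0 (huw ▸ hq)⟩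
  have hprod : coeff 0 a * coeff 0 b = 0 := by
    rw [← constantCoeff_eq, ← map_mul, ← hab]
    exact hq.coeff_eq_zero (by simp)
  refine Or.inr ⟨a, b, ?_⟩
  rcases mul_eq_zero.1 hprod with h | h
  · obtain ⟨h3, h4⟩ := key a b hab ha0 (by omega) h
    exact ⟨h3, h4, ha0, hb0, hab⟩
  · obtain ⟨h3, h4⟩ := key b a (by rw [hab, mul_comm]) hb0 (by omega) h
    exact ⟨h4, h3, ha0, hb0, hab⟩

theorem exists_form {ι : Type*} (p : ι → Fin 3 → K) (k : ℕ) (s : Finset ι)
    (hs : #s < (k + 2).choose 2) :
    ∃ q : MvPolynomial (Fin 3) K, q.IsHomogeneous k ∧ q ≠ 0 ∧ ∀ i ∈ s, eval (p i) q = 0 := by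
  have : FiniteDimensional K (homogeneousSubmodule (Fin 3) K k) :=
    FiniteDimensional.of_finrank_pos (by
      rw [BezoutCurves.finrank_homogeneous]; exact Nat.choose_pos (by omega))
  let φ : homogeneousSubmodule (Fin 3) K k →ₗ[K] (s → K) :=
    LinearMap.pi fun i => (MvPolynomial.aeval (p i)).toLinearMap ∘ₗ Submodule.subtype _
  have : LinearMap.ker φ ≠ ⊥ := LinearMap.ker_ne_bot_of_finrank_lt (by
    rwa [finrank_fintype_fun_eq_card, Fintype.card_coe, BezoutCurves.finrank_homogeneous])
  obtain ⟨⟨q, hq⟩, hker, hne⟩ := Submodule.exists_mem_ne_zero_of_ne_bot this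
  exact ⟨q, (mem_homogeneousSubmodule _ _).1 hq, fun h => hne (Subtype.ext h),
    fun i hi => congrFun (LinearMap.mem_ker.1 hker) ⟨i, hi⟩⟩

theorem dvd_of_not_isRelPrime {u w : MvPolynomial (Fin 3) K} (hu : Irreducible u)
    (h : ¬IsRelPrime u w) : u ∣ w :=
  by_contra fun hd => h (hu.isRelPrime_iff_not_dvd.2 hd)

variable {ι : Type*} {p : ι → Fin 3 → K}

/-- Two lines through two points coincide. -/
theorem line_unique (hp : Distinct p) {l l' : MvPolynomial (Fin 3) K} (hl : l.IsHomogeneous 1)
    (hl0 : l ≠ 0) (hl' : l'.IsHomogeneous 1) {a b : ι} (hab : a ≠ b)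
    (ha : eval (p a) l = 0) (hb : eval (p b) l = 0) (ha' : eval (p a) l' = 0)
    (hb' : eval (p b) l' = 0) : ∃ c, l' = C c * l := by
  classical
  refine eq_C_mul_of_dvd hl hl' hl0 (dvd_of_not_isRelPrime (irreducible_of_degree_one hl hl0)
    fun hcop => ?_)
  have h := card_le hl hl' hcop hp {a, b} (by simp [ha, hb]) (by simp [ha', hb'])
  rw [card_pair hab] at h
  omega

/-- Five points, no four on a line, lie on at most one conic. -/
theorem conic_unique (hp : Distinct p) [Fintype ι] [DecidableEq K]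
    (hline : ∀ l : MvPolynomial (Fin 3) K, l.IsHomogeneous 1 → l ≠ 0 →
      #(univ.filter fun i => eval (p i) l = 0) ≤ 3)
    {q q' : MvPolynomial (Fin 3) K} (hq : q.IsHomogeneous 2) (hq0 : q ≠ 0)
    (hq' : q'.IsHomogeneous 2) {s : Finset ι} (hs : 5 ≤ #s) (hqs : ∀ i ∈ s, eval (p i) q = 0)
    (hqs' : ∀ i ∈ s, eval (p i) q' = 0) : ∃ c, q' = C c * q := by
  classical
  rcases conic_cases hq hq0 with hirr | ⟨l₁, l₂, h1, h2, h10, h20, rfl⟩
  · refine eq_C_mul_of_dvd hq hq' hq0 (dvd_of_not_isRelPrime hirr fun hcop => ?_)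
    have := card_le hq hq' hcop hp s hqs hqs'
    omega
  wlog hbig : 3 ≤ #(s.filter fun i => eval (p i) l₁ = 0) generalizing l₁ l₂
  · obtain ⟨c, hc⟩ := this l₂ l₁ h2 h1 h20 h10 (by rwa [mul_comm] at hq) (by rwa [mul_comm] at hq0)
      (by simpa [mul_comm] using hqs) (by
        have hcov : s ⊆ (s.filter fun i => eval (p i) l₁ = 0) ∪
            s.filter fun i => eval (p i) l₂ = 0 := fun i hi => by
          have := hqs i hi
          rw [map_mul, mul_eq_zero] at this
          simpa [hi] using this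
        have := (card_le_card hcov).trans (card_union_le _ _)
        omega)
    exact ⟨c, by rw [hc, mul_comm l₁]⟩
  set A := s.filter fun i => eval (p i) l₁ = 0 with hA
  have hA3 : #A ≤ 3 := (card_le_card (fun i hi => by simp_all [A])).trans (hline l₁ h1 h10)
  obtain ⟨l', rfl⟩ : l₁ ∣ q' := dvd_of_not_isRelPrime (irreducible_of_degree_one h1 h10)
    fun hcop => by
      have := card_le h1 hq' hcop hp A (fun i hi => (mem_filter.1 hi).2)
        fun i hi => hqs' i (mem_filter.1 hi).1
      omega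
  have hl' : l'.IsHomogeneous 1 := BezoutCurves.isHomogeneous_of_mul (k := 1) h1 h10 hq'
  obtain ⟨a, ha, b, hb, hab⟩ := one_lt_card.1
    (show 1 < #(s \ A) by rw [card_sdiff_of_subset (show A ⊆ s from filter_subset _ _)]; omega)
  have key : ∀ i ∈ s \ A, eval (p i) l₂ = 0 ∧ eval (p i) l' = 0 := fun i hi => by
    rw [Finset.mem_sdiff, hA, mem_filter, not_and] at hi
    have e1 := hqs i hi.1
    have e2 := hqs' i hi.1
    rw [map_mul] at e1 e2
    exact ⟨(mul_eq_zero.1 e1).resolve_left (hi.2 hi.1), (mul_eq_zero.1 e2).resolve_left (hi.2 hi.1)⟩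
  obtain ⟨c, rfl⟩ := line_unique hp h2 h20 hl' hab (key a ha).1 (key b hb).1 (key a ha).2
    (key b hb).2
  exact ⟨c, by ring⟩

/-- Eight points, no four on a line and no seven on a conic, impose independent conditions on
cubics: some cubic form meets seven of them and not the eighth. -/
theorem exists_cubic [Fintype ι] [DecidableEq ι] [DecidableEq K] (hp : Distinct p)
    (hline : ∀ l : MvPolynomial (Fin 3) K, l.IsHomogeneous 1 → l ≠ 0 →
      #(univ.filter fun i => eval (p i) l = 0) ≤ 3)
    (hconic : ∀ q : MvPolynomial (Fin 3) K, q.IsHomogeneous 2 → q ≠ 0 →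
      #(univ.filter fun i => eval (p i) q = 0) ≤ 6)
    {s : Finset ι} (hs : #s = 7) {x : ι} (hx : x ∉ s) :
    ∃ h : MvPolynomial (Fin 3) K, h.IsHomogeneous 3 ∧ (∀ i ∈ s, eval (p i) h = 0) ∧
      eval (p x) h ≠ 0 := by
  by_contra! hno
  obtain ⟨a, ha⟩ : s.Nonempty := card_pos.1 (by omega)
  obtain ⟨l, hl, hl0, hlz⟩ := exists_form p 1 {a, x} (card_le_two.trans_lt (by decide))
  set B := (s.erase a).filter fun b => eval (p b) l ≠ 0 with hB
  have hB4 : 2 ≤ #B := by
    have hbad : insert a (insert x ((s.erase a).filter fun b => eval (p b) l = 0)) ⊆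
        univ.filter fun i => eval (p i) l = 0 := by
      intro i hi
      simp only [mem_insert, mem_filter, mem_univ, true_and] at hi ⊢
      rcases hi with rfl | rfl | hi
      exacts [hlz _ (by simp), hlz _ (by simp), hi.2]
    have h1 := (card_le_card hbad).trans (hline l hl hl0)
    rw [card_insert_of_notMem (by simp [show a ≠ x from fun h => hx (h ▸ ha)]),
      card_insert_of_notMem (by simp [hx])] at h1
    have h2 := card_filter_add_card_filter_not (s := s.erase a) (fun b => eval (p b) l = 0)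
    rw [card_erase_of_mem ha] at h2
    simp only [hB, ne_eq]
    omega
  obtain ⟨b, hb, c, hc, hbc⟩ := one_lt_card.1 hB4
  have key : ∀ b ∈ B, ∃ q : MvPolynomial (Fin 3) K, q.IsHomogeneous 2 ∧ q ≠ 0 ∧
      ∀ i ∈ insert x ((s.erase a).erase b), eval (p i) q = 0 := by
    intro b hb
    obtain ⟨hb1, hb2⟩ := mem_filter.1 hb
    obtain ⟨hba, hbs⟩ := mem_erase.1 hb1
    obtain ⟨l', hl', hl'0, hl'z⟩ := exists_form p 1 {a, b} (card_le_two.trans_lt (by decide))
    obtain ⟨q, hq, hq0, hqz⟩ := exists_form p 2 ((s.erase a).erase b) (by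
      rw [card_erase_of_mem hb1, card_erase_of_mem ha, hs]; decide)
    refine ⟨q, hq, hq0, forall_mem_insert _ _ _ |>.2 ⟨?_, hqz⟩⟩
    have hprod := hno (l' * q) (hl'.mul hq) fun i hi => by
      rw [map_mul]
      rcases eq_or_ne i a with rfl | hia
      · rw [hl'z _ (by simp), zero_mul]
      rcases eq_or_ne i b with rfl | hib
      · rw [hl'z _ (by simp), zero_mul]
      · rw [hqz i (by simp [hi, hia, hib]), mul_zero]
    rw [map_mul, mul_eq_zero] at hprod
    refine hprod.resolve_left fun h => hb2 ?_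
    obtain ⟨e, rfl⟩ := line_unique hp hl' hl'0 hl (show a ≠ x from fun h => hx (h ▸ ha))
      (hl'z a (by simp)) h (hlz a (by simp)) (hlz x (by simp))
    rw [map_mul, hl'z b (by simp), mul_zero]
  obtain ⟨q, hq, hq0, hqz⟩ := key b hb
  obtain ⟨q', hq', hq'0, hqz'⟩ := key c hc
  have hb1 := (mem_filter.1 hb).1
  have hc1 := (mem_filter.1 hc).1
  set R := insert x (((s.erase a).erase b).erase c) with hR
  have hR5 : 5 ≤ #R := by
    rw [hR, card_insert_of_notMem (by simp [hx]), card_erase_of_mem (by simp [hbc.symm, hc1]),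
      card_erase_of_mem hb1, card_erase_of_mem ha, hs]
  obtain ⟨e, he⟩ := conic_unique hp hline hq hq0 hq' hR5
    (fun i hi => hqz i (insert_subset_insert _ (erase_subset _ _) hi))
    (fun i hi => hqz' i (by
      simp only [hR, mem_insert, mem_erase] at hi ⊢
      tauto))
  have he0 : e ≠ 0 := fun h => hq'0 (by rw [he, h, map_zero, zero_mul])
  have hqb : eval (p b) q = 0 := by
    have h := hqz' b (by simp [hbc, hb1])
    rw [he, map_mul, eval_C] at h
    exact (mul_eq_zero.1 h).resolve_left he0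
  have h7 : insert x (s.erase a) ⊆ univ.filter fun i => eval (p i) q = 0 := by
    intro i hi
    refine mem_filter.2 ⟨mem_univ i, ?_⟩
    rcases eq_or_ne i b with rfl | hib
    · exact hqb
    · refine hqz i ?_
      simp only [mem_insert, mem_erase] at hi ⊢
      tauto
  have := (card_le_card h7).trans (hconic q hq hq0)
  rw [card_insert_of_notMem (by simp [hx]), card_erase_of_mem ha, hs] at this
  omega

theorem eq_combination {V : Type*} [AddCommGroup V] [Module K V] {W : Submodule K V}
    [FiniteDimensional K W] (hW : finrank K W = 2) {F G x : V} (hF : F ∈ W) (hG : G ∈ W)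
    (hx : x ∈ W) (hFG : LinearIndependent K ![F, G]) : ∃ a b : K, a • F + b • G = x := by
  have hle : Submodule.span K (Set.range ![F, G]) ≤ W := by
    rw [Submodule.span_le]
    rintro _ ⟨i, rfl⟩
    fin_cases i <;> assumption
  have h := Submodule.eq_of_le_of_finrank_eq hle
    (by rw [finrank_span_eq_card hFG, Fintype.card_fin, hW])
  rw [← h, Matrix.range_cons, Matrix.range_cons, Matrix.range_empty, Set.union_empty,
    Set.singleton_union] at hx
  exact Submodule.mem_span_pair.1 hx

/-- **The theorem of Cayley and Bacharach** for cubics. -/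
theorem ninth_point [Fintype ι] (hι : Fintype.card ι = 9) (hp : Distinct p)
    {f g : MvPolynomial (Fin 3) K} (hf : f.IsHomogeneous 3) (hg : g.IsHomogeneous 3)
    (hcop : IsRelPrime f g) (hfz : ∀ i, eval (p i) f = 0) (hgz : ∀ i, eval (p i) g = 0)
    {h : MvPolynomial (Fin 3) K} (hh : h.IsHomogeneous 3) {o : ι}
    (hhz : ∀ i, i ≠ o → eval (p i) h = 0) : eval (p o) h = 0 := by
  classical
  have hnd : ∀ u : MvPolynomial (Fin 3) K, Irreducible u → u ∣ f → u ∣ g → False :=
    fun u hu h1 h2 => hu.not_isUnit (hcop h1 h2)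
  have hline : ∀ l : MvPolynomial (Fin 3) K, l.IsHomogeneous 1 → l ≠ 0 →
      #(univ.filter fun i => eval (p i) l = 0) ≤ 3 := by
    intro l hl hl0
    have hirr := irreducible_of_degree_one hl hl0
    by_contra! hlt
    refine hnd l hirr (dvd_of_not_isRelPrime hirr fun hc => ?_)
      (dvd_of_not_isRelPrime hirr fun hc => ?_)
    · exact absurd (card_le hl hf hc hp (univ.filter fun i => eval (p i) l = 0)
        (fun i hi => (mem_filter.1 hi).2) fun i _ => hfz i)
        (by omega)
    · exact absurd (card_le hl hg hc hp (univ.filter fun i => eval (p i) l = 0)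
        (fun i hi => (mem_filter.1 hi).2) fun i _ => hgz i)
        (by omega)
  have hconic : ∀ q : MvPolynomial (Fin 3) K, q.IsHomogeneous 2 → q ≠ 0 →
      #(univ.filter fun i => eval (p i) q = 0) ≤ 6 := by
    intro q hq hq0
    rcases conic_cases hq hq0 with hirr | ⟨l₁, l₂, h1, h2, h10, h20, rfl⟩
    · by_contra! hlt
      refine hnd q hirr (dvd_of_not_isRelPrime hirr fun hc => ?_)
        (dvd_of_not_isRelPrime hirr fun hc => ?_)
      · exact absurd (card_le hq hf hc hp (univ.filter fun i => eval (p i) q = 0)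
        (fun i hi => (mem_filter.1 hi).2) fun i _ => hfz i)
          (by omega)
      · exact absurd (card_le hq hg hc hp (univ.filter fun i => eval (p i) q = 0)
        (fun i hi => (mem_filter.1 hi).2) fun i _ => hgz i)
          (by omega)
    · refine (card_le_card ?_).trans ((card_union_le _ _).trans
        (Nat.add_le_add (hline l₁ h1 h10) (hline l₂ h2 h20)))
      intro i hi
      simpa [mul_eq_zero] using hi
  set E := univ.erase o with hE
  have : FiniteDimensional K (homogeneousSubmodule (Fin 3) K 3) :=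
    FiniteDimensional.of_finrank_pos (by rw [BezoutCurves.finrank_homogeneous]; decide)
  let φ : homogeneousSubmodule (Fin 3) K 3 →ₗ[K] (E → K) :=
    LinearMap.pi fun i => (MvPolynomial.aeval (p i)).toLinearMap ∘ₗ Submodule.subtype _
  have hφ : ∀ u (i : E), φ u i = eval (p i) (u : MvPolynomial (Fin 3) K) := fun u i => rfl
  have hsurj : LinearMap.range φ = ⊤ := by
    rw [eq_top_iff, ← (Pi.basisFun K E).span_eq, Submodule.span_le]
    rintro _ ⟨x, rfl⟩
    obtain ⟨u, hu, hus, hux⟩ := exists_cubic hp hline hconic (s := E.erase x) (x := (x : ι))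
      (by rw [card_erase_of_mem x.2, hE, card_erase_of_mem (mem_univ o), card_univ, hι])
      (by simp)
    refine ⟨(eval (p x) u)⁻¹ • ⟨u, (mem_homogeneousSubmodule _ _).2 hu⟩, funext fun i => ?_⟩
    rw [map_smul, Pi.smul_apply, hφ, Pi.basisFun_apply, smul_eq_mul]
    rcases eq_or_ne i x with rfl | hix
    · rw [Pi.single_eq_same, inv_mul_cancel₀ hux]
    · rw [Pi.single_eq_of_ne hix,
        hus i (mem_erase.2 ⟨fun e => hix (Subtype.ext e), i.2⟩), mul_zero]
  have h2 := LinearMap.finrank_range_add_finrank_ker φ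
  rw [hsurj, finrank_top, finrank_fintype_fun_eq_card, Fintype.card_coe,
    BezoutCurves.finrank_homogeneous, show #E = 8 by
      rw [hE, card_erase_of_mem (mem_univ o), card_univ, hι]] at h2
  let F : homogeneousSubmodule (Fin 3) K 3 := ⟨f, (mem_homogeneousSubmodule _ _).2 hf⟩
  let G : homogeneousSubmodule (Fin 3) K 3 := ⟨g, (mem_homogeneousSubmodule _ _).2 hg⟩
  let H : homogeneousSubmodule (Fin 3) K 3 := ⟨h, (mem_homogeneousSubmodule _ _).2 hh⟩
  have hnu : ∀ u : MvPolynomial (Fin 3) K, u.IsHomogeneous 3 → ¬IsUnit u := fun u hu h => by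
    rcases eq_or_ne u 0 with rfl | hu0
    · exact not_isUnit_zero h
    · rw [isUnit_iff_totalDegree_of_isReduced, hu.totalDegree hu0] at h
      omega
  have hv : LinearIndependent K ![F, G] := by
    refine LinearIndependent.pair_iff.2 fun a b hab => ?_
    have e : C a * f + C b * g = 0 := by
      have := congrArg Subtype.val hab
      simpa [F, G, MvPolynomial.smul_eq_C_mul] using this
    by_contra hne
    rcases eq_or_ne a 0 with rfl | ha
    · have hb : b ≠ 0 := fun hb => hne ⟨rfl, hb⟩
      have hg0 : g = 0 := by simpa [hb] using e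
      exact hnu f hf (hcop dvd_rfl (hg0 ▸ dvd_zero f))
    · refine hnu g hg (hcop (((IsUnit.mk0 a ha).map C).dvd_mul_left.1 ⟨-C b, ?_⟩) dvd_rfl)
      linear_combination e
  obtain ⟨a, b, hd⟩ := eq_combination (W := LinearMap.ker φ)
    (by have : Nat.choose (3 + 2) 2 = 10 := rfl; omega) (F := F) (G := G) (x := H)
    (LinearMap.mem_ker.2 (funext fun i => hfz i)) (LinearMap.mem_ker.2 (funext fun i => hgz i))
    (LinearMap.mem_ker.2 (funext fun i => hhz i (mem_erase.1 i.2).1)) hv
  have e : a • f + b • g = h := congrArg Subtype.val hd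
  rw [← e, map_add, smul_eval, smul_eval, hfz o, hgz o, mul_zero, mul_zero, add_zero]

end FA.CayleyBacharach

end
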