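import Fermat.Agent.CayleyBacharach.Basic

/-!
# The hexagon theorems of Pascal and Pappus

The three meeting points of opposite sides of a hexagon inscribed in a conic are collinear.
-/

set_option autoImplicit false

noncomputable section

open MvPolynomial Module Finset Matrix

namespace FA.CayleyBacharach

variable {K : Type*} [Field K]

/-- The linear form with coefficient vector `u`. -/
def form (u : Fin 3 → K) : MvPolynomial (Fin 3) K := ∑ i, C (u i) * X i

theorem isHomogeneous_form (u : Fin 3 → K) : (form u).IsHomogeneous 1 :=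
  IsHomogeneous.sum _ _ _ fun _ _ => isHomogeneous_C_mul_X _ _

theorem eval_form (u x : Fin 3 → K) : eval x (form u) = u ⬝ᵥ x := by
  simp [form, dotProduct]

theorem form_ne_zero {u : Fin 3 → K} (hu : u ≠ 0) : form u ≠ 0 := by
  obtain ⟨i, hi⟩ := Function.ne_iff.1 hu
  intro h
  refine hi ?_
  have := eval_form u (Pi.single i 1)
  rw [h, map_zero, dotProduct_single, mul_one] at this
  exact this.symm

/-- The line through two points. -/
def lineThrough (a b : Fin 3 → K) : MvPolynomial (Fin 3) K := form (crossProduct a b)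

theorem det_rows (a b x : Fin 3 → K) : Matrix.det ![a, b, x] =
    a 0 * (b 1 * x 2 - b 2 * x 1) - a 1 * (b 0 * x 2 - b 2 * x 0)
      + a 2 * (b 0 * x 1 - b 1 * x 0) := by
  refine (det_fin_three _).trans ?_
  simp
  ring

theorem eval_lineThrough (a b x : Fin 3 → K) :
    eval x (lineThrough a b) = Matrix.det ![a, b, x] := by
  rw [lineThrough, eval_form, det_rows]
  simp [dotProduct, Fin.sum_univ_three, cross_apply]
  ring

theorem eval_side_left (A : Fin 6 → Fin 3 → K) (k : Fin 6) :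
    eval (A k) (lineThrough (A k) (A (k + 1))) = 0 ∧
      eval (A (k + 1)) (lineThrough (A k) (A (k + 1))) = 0 := by
  rw [eval_lineThrough, eval_lineThrough, det_rows, det_rows]
  exact ⟨by ring, by ring⟩

theorem eval_lineThrough_smul (a b x : Fin 3 → K) (c : K) :
    eval (c • x) (lineThrough a b) = c * eval x (lineThrough a b) := by
  rw [lineThrough, eval_form, eval_form, dotProduct_smul, smul_eq_mul]

theorem lineThrough_ne_zero {a b : Fin 3 → K} (ha : a ≠ 0) (hab : ∀ c : K, b ≠ c • a) :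
    lineThrough a b ≠ 0 :=
  form_ne_zero (crossProduct_ne_zero_iff_linearIndependent.2
    ((LinearIndependent.pair_iff' ha).2 fun c => Ne.symm (hab c)))

theorem proportional_of_line_meet {l l' : MvPolynomial (Fin 3) K} (hl : l.IsHomogeneous 1)
    (hl0 : l ≠ 0) (hl' : l'.IsHomogeneous 1) {u x : Fin 3 → K} (hu : u ≠ 0) (hx : x ≠ 0)
    (hu1 : eval u l = 0) (hu2 : eval u l' = 0) (hx1 : eval x l = 0) (hx2 : eval x l' = 0) :
    (∃ c : K, x = c • u) ∨ ∃ c, l' = C c * l := by
  refine or_iff_not_imp_left.2 fun h => ?_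
  push Not at h
  have hp : Distinct ![u, x] := by
    refine ⟨fun i => by fin_cases i <;> simp [hu, hx], fun i j hij c => ?_⟩
    fin_cases i <;> fin_cases j <;> simp_all
    intro e
    rcases eq_or_ne c 0 with rfl | hc
    · exact hu (by simpa using e)
    · exact h c⁻¹ (by rw [e, smul_smul, inv_mul_cancel₀ hc, one_smul])
  exact line_unique hp hl hl0 hl' (a := (0 : Fin 2)) (b := 1) (by decide) (by simpa) (by simpa)
    (by simpa) (by simpa)

/-- The sides of a hexagon. -/
def side (A : Fin 6 → Fin 3 → K) (k : Fin 6) : MvPolynomial (Fin 3) K :=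
  lineThrough (A k) (A (k + 1))

/-- The hexagon theorem, for a conic meeting each side only in its two vertices. -/
theorem hexagon {A : Fin 6 → Fin 3 → K} (hA : Distinct A) {q : MvPolynomial (Fin 3) K}
    (hq : q.IsHomogeneous 2) (hAq : ∀ k, eval (A k) q = 0)
    (hmeet : ∀ k x, x ≠ 0 → eval x (side A k) = 0 → eval x q = 0 →
      (∃ c : K, x = c • A k) ∨ ∃ c : K, x = c • A (k + 1))
    {P : Fin 3 → Fin 3 → K} (hP : ∀ i, P i ≠ 0)
    (hP1 : ∀ i, eval (P i) (side A (![0, 1, 2] i)) = 0)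
    (hP2 : ∀ i, eval (P i) (side A (![3, 4, 5] i)) = 0) :
    Matrix.det ![P 0, P 1, P 2] = 0 := by
  have hne : ∀ k, side A k ≠ 0 := fun k =>
    lineThrough_ne_zero (hA.1 k) (hA.2 k (k + 1) (by simp))
  have hh : ∀ k, (side A k).IsHomogeneous 1 := fun k => isHomogeneous_form _
  have hend : ∀ k, eval (A k) (side A k) = 0 ∧ eval (A (k + 1)) (side A k) = 0 :=
    eval_side_left A
  have hoff : ∀ j k, j ≠ k → j ≠ k + 1 → eval (A j) (side A k) ≠ 0 := fun j k h1 h2 h => by
    rcases hmeet k (A j) (hA.1 j) h (hAq j) with ⟨c, hc⟩ | ⟨c, hc⟩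
    exacts [hA.2 k j h1.symm c hc, hA.2 (k + 1) j h2.symm c hc]
  have hprop : ∀ j k, j ≠ k → ∀ c, side A j ≠ C c * side A k := by
    intro j k hjk c hc
    have h1 : ∀ i, eval (A i) (side A k) = 0 → eval (A i) (side A j) = 0 := fun i hi => by
      rw [hc, map_mul, hi, mul_zero]
    by_cases hk : k = j + 1
    · have h2 : ∀ i : Fin 6, i + 1 + 1 ≠ i ∧ i + 1 + 1 ≠ i + 1 := by decide
      exact hoff (k + 1) j (hk ▸ (h2 j).1) (hk ▸ (h2 j).2) (h1 _ (hend k).2)
    · exact hoff k j (Ne.symm hjk) hk (h1 _ (hend k).1)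
  have hcop : ∀ j k, j ≠ k → IsRelPrime (side A j) (side A k) := fun j k hjk =>
    (irreducible_of_degree_one (hh j) (hne j)).isRelPrime_iff_not_dvd.2 fun hd => by
      obtain ⟨c, hc⟩ := eq_C_mul_of_dvd (hh j) (hh k) (hne j) hd
      exact hprop k j hjk.symm c hc
  -- the meeting point of two sides with a common vertex
  have hadj : ∀ k x, x ≠ 0 → eval x (side A k) = 0 → eval x (side A (k + 1)) = 0 →
      ∃ c : K, x = c • A (k + 1) := fun k x hx h1 h2 =>
    (proportional_of_line_meet (hh k) (hne k) (hh (k + 1)) (hA.1 _) hx (hend k).2 (hend (k + 1)).1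
      h1 h2).resolve_right fun ⟨c, hc⟩ => hprop (k + 1) k (by simp) c hc
  let p : Fin 6 ⊕ Fin 3 → Fin 3 → K := Sum.elim A P
  have hpoint : ∀ i j (c : K), P i ≠ c • A j := by
    intro i j c hc
    have hc0 : c ≠ 0 := fun h => hP i (by rw [hc, h, zero_smul])
    have key : ∀ k, eval (P i) (side A k) = 0 → j = k ∨ j = k + 1 := fun k hk => by
      by_contra! hj
      refine hoff j k hj.1 hj.2 ?_
      rw [hc, side, eval_lineThrough_smul] at hk
      exact (mul_eq_zero.1 hk).resolve_left hc0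
    rcases key _ (hP1 i) with e | e <;> rcases key _ (hP2 i) with e' | e' <;>
      rw [e] at e' <;> revert e' <;> fin_cases i <;> decide
  have hpp : ∀ i j, i ≠ j → ∀ c : K, P j ≠ c • P i := by
    intro i j hij c hc
    have hz : ∀ k, eval (P i) (side A k) = 0 → eval (P j) (side A k) = 0 := fun k hk => by
      rw [hc, side, eval_lineThrough_smul]
      rw [side] at hk
      rw [hk, mul_zero]
    have h1 := hz _ (hP1 i)
    have h2 := hP1 j
    have h3 := hz _ (hP2 i)
    have h4 := hP2 j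
    obtain ⟨k, hk1, hk2⟩ : ∃ k, eval (P j) (side A k) = 0 ∧ eval (P j) (side A (k + 1)) = 0 := by
      fin_cases i <;> fin_cases j <;> simp at hij h1 h2 h3 h4
      exacts [⟨0, h1, h2⟩, ⟨2, h2, h3⟩, ⟨0, h2, h1⟩, ⟨1, h1, h2⟩, ⟨2, h1, h4⟩, ⟨1, h2, h1⟩]
    obtain ⟨d, hd⟩ := hadj k (P j) (hP j) hk1 hk2
    exact hpoint j (k + 1) d hd
  have hp : Distinct p := by
    refine ⟨fun i => ?_, fun i j hij c => ?_⟩
    · rcases i with k | k
      exacts [hA.1 k, hP k]
    · rcases i with a | a <;> rcases j with b | b <;> simp only [p, Sum.elim_inl, Sum.elim_inr]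
      · exact hA.2 a b (fun h => hij (by rw [h])) c
      · exact hpoint b a c
      · intro h
        refine hpoint a b c⁻¹ ?_
        have hc0 : c ≠ 0 := fun h0 => hA.1 b (by rw [h, h0, zero_smul])
        rw [h, smul_smul, inv_mul_cancel₀ hc0, one_smul]
      · exact hpp a b (fun h => hij (by rw [h])) c
  set f := side A 0 * side A 2 * side A 4 with hf
  set g := side A 1 * side A 3 * side A 5 with hg
  have hfg : IsRelPrime f g := by
    simp only [hf, hg, IsRelPrime.mul_left_iff, IsRelPrime.mul_right_iff]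
    refine ⟨⟨⟨⟨?_, ?_⟩, ?_⟩, ⟨?_, ?_⟩, ?_⟩, ⟨?_, ?_⟩, ?_⟩ <;> exact hcop _ _ (by decide)
  have hz : ∀ i, eval (p i) f = 0 ∧ eval (p i) g = 0 := by
    have a0 : eval (A 1) (side A 0) = 0 := (hend 0).2
    have a1 : eval (A 2) (side A 1) = 0 := (hend 1).2
    have a2 : eval (A 3) (side A 2) = 0 := (hend 2).2
    have a3 : eval (A 4) (side A 3) = 0 := (hend 3).2
    have a4 : eval (A 5) (side A 4) = 0 := (hend 4).2
    have a5 : eval (A 0) (side A 5) = 0 := (hend 5).2
    rintro (k | k)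
    · fin_cases k <;>
        simp [p, f, g, (hend 0).1, (hend 1).1, (hend 2).1, (hend 3).1, (hend 4).1, (hend 5).1,
          a0, a1, a2, a3, a4, a5]
    · have h1 := hP1 k
      have h2 := hP2 k
      fin_cases k <;> simp_all [p, f, g]
  have key := ninth_point (p := p) (by simp) hp (((hh 0).mul (hh 2)).mul (hh 4))
    (((hh 1).mul (hh 3)).mul (hh 5)) hfg (fun i => (hz i).1) (fun i => (hz i).2)
    (h := q * lineThrough (P 0) (P 1)) (hq.mul (isHomogeneous_form _)) (o := Sum.inr 2)
    fun i hi => by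
      rcases i with k | k
      · simp [p, hAq k]
      · rw [map_mul, eval_lineThrough]
        fin_cases k <;> simp_all [p, det_rows] <;> ring_nf <;> simp
  rw [map_mul, eval_lineThrough, mul_eq_zero] at key
  refine key.resolve_left fun hqz => ?_
  rcases hmeet 2 (P 2) (hP 2) (hP1 2) hqz with ⟨c, hc⟩ | ⟨c, hc⟩
  · exact hpoint 2 2 c hc
  · exact hpoint 2 3 c hc

/-- **Pascal's theorem.** -/
theorem pascal {A : Fin 6 → Fin 3 → K} (hA : Distinct A) {q : MvPolynomial (Fin 3) K}
    (hq : q.IsHomogeneous 2) (hirr : Irreducible q) (hAq : ∀ k, eval (A k) q = 0)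
    {P : Fin 3 → Fin 3 → K} (hP : ∀ i, P i ≠ 0)
    (hP1 : ∀ i, eval (P i) (side A (![0, 1, 2] i)) = 0)
    (hP2 : ∀ i, eval (P i) (side A (![3, 4, 5] i)) = 0) :
    Matrix.det ![P 0, P 1, P 2] = 0 := by
  refine hexagon hA hq hAq (fun k x hx hxl hxq => ?_) hP hP1 hP2
  have hl0 : side A k ≠ 0 := lineThrough_ne_zero (hA.1 k) (hA.2 k (k + 1) (by simp))
  have hl : (side A k).IsHomogeneous 1 := isHomogeneous_form _
  have hirrl := irreducible_of_degree_one hl hl0
  by_contra! hne
  have hp : Distinct ![A k, A (k + 1), x] := by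
    refine ⟨fun i => by fin_cases i <;> simp [hA.1, hx], fun i j hij c h => ?_⟩
    have hinv : ∀ u w : Fin 3 → K, u ≠ 0 → u = c • w → w = c⁻¹ • u := fun u w hu e => by
      have hc : c ≠ 0 := fun h0 => hu (by rw [e, h0, zero_smul])
      rw [e, smul_smul, inv_mul_cancel₀ hc, one_smul]
    fin_cases i <;> fin_cases j <;> simp at hij h
    exacts [hA.2 k (k + 1) (by simp) c h, hne.1 c h, hA.2 (k + 1) k (by simp) c h, hne.2 c h,
      hne.1 _ (hinv _ _ (hA.1 k) h), hne.2 _ (hinv _ _ (hA.1 _) h)]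
  have hcop : IsRelPrime (side A k) q := hirrl.isRelPrime_iff_not_dvd.2 fun hd => by
    obtain ⟨r, hr⟩ := hd
    rcases hirr.isUnit_or_isUnit hr with hu | hu
    · exact hirrl.not_isUnit hu
    · have h1 := hq.totalDegree hirr.ne_zero
      rw [hr, totalDegree_mul_of_isDomain hl0 hu.ne_zero,
        hl.totalDegree hl0, (isUnit_iff_totalDegree_of_isReduced.1 hu).2] at h1
      omega
  have h2 := card_le hl hq hcop hp (univ : Finset (Fin 3))
    (fun i _ => by
      fin_cases i <;> first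
      | exact hxl | exact (eval_side_left A k).1 | exact (eval_side_left A k).2)
    (fun i _ => by fin_cases i <;> first | exact hxq | exact hAq _)
  rw [card_univ, Fintype.card_fin] at h2
  omega

/-- **Pappus's theorem.** -/
theorem pappus {A : Fin 6 → Fin 3 → K} (hA : Distinct A) {u w : Fin 3 → K}
    (hu : ∀ k : Fin 6, Even k.val → u ⬝ᵥ A k = 0 ∧ w ⬝ᵥ A k ≠ 0)
    (hw : ∀ k : Fin 6, Odd k.val → w ⬝ᵥ A k = 0 ∧ u ⬝ᵥ A k ≠ 0)
    {P : Fin 3 → Fin 3 → K} (hP : ∀ i, P i ≠ 0)
    (hP1 : ∀ i, eval (P i) (side A (![0, 1, 2] i)) = 0)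
    (hP2 : ∀ i, eval (P i) (side A (![3, 4, 5] i)) = 0) :
    Matrix.det ![P 0, P 1, P 2] = 0 := by
  refine hexagon hA (q := form u * form w) ((isHomogeneous_form u).mul (isHomogeneous_form w))
    (fun k => ?_) (fun k x hx hxl hxq => ?_) hP hP1 hP2
  · rw [map_mul, eval_form, eval_form]
    rcases Nat.even_or_odd k.val with h | h
    · rw [(hu k h).1, zero_mul]
    · rw [(hw k h).1, mul_zero]
  have hl0 : side A k ≠ 0 := lineThrough_ne_zero (hA.1 k) (hA.2 k (k + 1) (by simp))
  have he : eval (A k) (side A k) = 0 ∧ eval (A (k + 1)) (side A k) = 0 := eval_side_left A k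
  have main : ∀ (v : Fin 3 → K) (s t : Fin 6), v ⬝ᵥ A s = 0 → v ⬝ᵥ A t ≠ 0 →
      eval (A s) (side A k) = 0 → eval (A t) (side A k) = 0 → v ⬝ᵥ x = 0 →
      ∃ c : K, x = c • A s := by
    intro v s t hs ht hsl htl hv
    refine (proportional_of_line_meet (l := side A k) (l' := form v) (isHomogeneous_form _) hl0
      (isHomogeneous_form v) (hA.1 s) hx hsl (by rwa [eval_form]) hxl (by rwa [eval_form])
      ).resolve_right fun ⟨c, hc⟩ => ht ?_
    rw [← eval_form, hc, map_mul, htl, mul_zero]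
  have hpar : ∀ k : Fin 6, (Even k.val ↔ Odd (k + 1).val) ∧ (Odd k.val ↔ Even (k + 1).val) := by
    decide
  rw [map_mul, eval_form, eval_form, mul_eq_zero] at hxq
  rcases Nat.even_or_odd k.val with h | h <;> rcases hxq with e | e
  · exact Or.inl (main u k (k + 1) (hu k h).1 (hw _ ((hpar k).1.1 h)).2 he.1 he.2 e)
  · exact Or.inr (main w (k + 1) k (hw _ ((hpar k).1.1 h)).1 (hu k h).2 he.2 he.1 e)
  · exact Or.inr (main u (k + 1) k (hu _ ((hpar k).2.1 h)).1 (hw k h).2 he.2 he.1 e)
  · exact Or.inl (main w k (k + 1) (hw k h).1 (hu _ ((hpar k).2.1 h)).2 he.1 he.2 e)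

end FA.CayleyBacharach

end
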